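import Fermat.Agent.GAL.HeckeEquiv.Cosets
import Fermat.Agent.GAL.Sup.Defs

/-!
# Hecke equivariance of the Kummer relation: the two halves

* algebraic half: `m D = div u  ⟹  m (ψ_* φ^* D) = div (Norm_ψ (φ u))`;
* analytic half: `h' = ∏ₓ h ∘ heckeRep ℓ x` transforms by the transferred character.
-/

set_option autoImplicit false
set_option linter.style.haveILetI false

namespace Fermat.Agent.GAL.HeckeEquiv

open Fermat.Agent.S24 UpperHalfPlane ModularCurve ModularForm AlgebraicCurve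
  CongruenceSubgroup Matrix.SpecialLinearGroup
open P2MW.S_ModularForm_heckeT_slash_eq_self_of_mem_Gamma0.ModularForm.HeckeSlashInvariance
open scoped MatrixGroups OnePoint

noncomputable section

section Algebraic

variable {K F F' : Type*} [Field K] [Field F] [Field F'] [Algebra K F] [Algebra K F']
variable [HasPrincipalDivisors K F']

theorem ord_norm_eq_mul_correspondence (φ ψ : F →ₐ[K] F') (hφ : φ.toRingHom.IsIntegral)
    (hψ : ψ.toRingHom.IsIntegral) (hfin : FiniteAlong K ψ) (hN : NormFormulaAlong K ψ hfin)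
    (m : ℤ) (D : Divisor K F) (u : F) (hu : u ≠ 0) (hD : ∀ v : Place K F, v.ord u = m * D v)
    (v : Place K F) :
    v.ord (letI := algebraAlong ψ; Algebra.norm F (φ u)) =
      m * Divisor.correspondence φ ψ hφ hψ D v := by
  have h1 : ∀ w : Place K F', Divisor.pullbackAlong φ hφ (m • D) w = w.ord (φ u) := by
    intro w
    rw [Divisor.pullbackAlong_apply, Place.ord_restrictAlong φ hφ, hD]
    rfl
  have h2 := hN (φ u) (by simpa using hu) (Divisor.pullbackAlong φ hφ (m • D)) h1 v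
  have h3 : Divisor.correspondence φ ψ hφ hψ (m • D) = m • Divisor.correspondence φ ψ hφ hψ D :=
    map_zsmul _ _ _
  have h4 : Divisor.correspondence φ ψ hφ hψ (m • D) v =
      m * Divisor.correspondence φ ψ hφ hψ D v := by
    rw [h3]
    rfl
  rw [← h4]
  exact h2.symm

omit [HasPrincipalDivisors K F'] in
theorem norm_along_ne_zero (φ ψ : F →ₐ[K] F') (hfin : FiniteAlong K ψ) {u : F} (hu : u ≠ 0) :
    (letI := algebraAlong ψ; Algebra.norm F (φ u)) ≠ 0 := by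
  letI := algebraAlong ψ
  haveI : Module.Finite F F' := hfin
  exact Algebra.norm_ne_zero_iff.mpr (by simpa using hu)

end Algebraic

section Analytic

variable {N ℓ : ℕ} [hℓ : Fact ℓ.Prime]

/-- `h' = ∏ₓ h ∘ heckeRep ℓ x`. -/
def heckeProd (ℓ : ℕ) [Fact ℓ.Prime] (h : Mer) : Mer :=
  ∏ x : OnePoint (ZMod ℓ), merGL (heckeRep ℓ x) (det_heckeRep_pos ℓ x) h

theorem heckeProd_pow (h : Mer) (m : ℕ) : heckeProd ℓ (h ^ m) = heckeProd ℓ h ^ m := by
  rw [heckeProd, heckeProd, ← Finset.prod_pow]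
  exact Finset.prod_congr rfl fun x _ => map_pow _ _ _

theorem hasChar_heckeProd (hℓN : ¬ ℓ ∣ N) {χ χ' : Gamma0 N →* ℂˣ} {h : Mer}
    (hχ : HasChar N χ h) (ht : IsTransferChar ℓ χ χ') : HasChar N χ' (heckeProd ℓ h) := by
  intro g
  -- the transfer data for `g⁻¹`
  have hex : ∀ x : OnePoint (ZMod ℓ), ∃ d : Gamma0 N,
      heckeRep ℓ x * mapGL ℝ ((g⁻¹ : Gamma0 N) : SL(2, ℤ)) =
        mapGL ℝ (d : SL(2, ℤ)) * heckeRep ℓ (redMatrix ℓ ((g⁻¹ : Gamma0 N) : SL(2, ℤ)) • x) := by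
    intro x
    obtain ⟨g', h1, h2⟩ := heckeRep_mul hℓN ((g⁻¹ : Gamma0 N) : SL(2, ℤ))
      ((S20.mem_Gamma0_iff_dvd N _).mp (g⁻¹).2) x
    exact ⟨⟨g', (S20.mem_Gamma0_iff_dvd N _).mpr h1⟩, h2⟩
  choose d hd using hex
  set σ : Equiv.Perm (OnePoint (ZMod ℓ)) :=
    MulAction.toPerm (redMatrix ℓ ((g⁻¹ : Gamma0 N) : SL(2, ℤ))) with hσ
  have htr : χ' g⁻¹ = ∏ x, χ (d x) := ht g⁻¹ σ d hd
  have hterm : ∀ x : OnePoint (ZMod ℓ),
      actMer (g : SL(2, ℤ)) (merGL (heckeRep ℓ x) (det_heckeRep_pos ℓ x) h) =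
        algebraMap ℂ Mer (((χ (d x))⁻¹ : ℂˣ) : ℂ) *
          merGL (heckeRep ℓ (σ x)) (det_heckeRep_pos ℓ _) h := by
    intro x
    have e1 : actMer ((d x : SL(2, ℤ)))⁻¹ h = algebraMap ℂ Mer (((χ (d x))⁻¹ : ℂˣ) : ℂ) * h := by
      have := hχ (d x)⁻¹
      rwa [map_inv] at this
    have hdx : heckeRep ℓ x * mapGL ℝ (g : SL(2, ℤ))⁻¹ =
        mapGL ℝ (d x : SL(2, ℤ)) * heckeRep ℓ (σ x) := hd x
    rw [actMer_eq_merGL, merGL_merGL, merGL_congr hdx,
      ← merGL_merGL _ _ (det_heckeRep_pos ℓ _) (det_mapGL_pos (d x : SL(2, ℤ))), merGL_mapGL, e1,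
      map_mul, AlgHom.commutes]
  rw [heckeProd, map_prod, Finset.prod_congr rfl fun x _ => hterm x, Finset.prod_mul_distrib,
    Equiv.prod_comp σ (fun x => merGL (heckeRep ℓ x) (det_heckeRep_pos ℓ x) h), ← map_prod]
  congr 2
  rw [← Units.coe_prod, Finset.prod_inv_distrib, ← htr, map_inv, inv_inv]

end Analytic

end

end Fermat.Agent.GAL.HeckeEquiv
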