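import Fermat.Agent.GAL.HeckeEquiv.ThetaLevel
import Fermat.Agent.S24.CP
import Fermat.Agent.S20.CombIndex

/-!
# The norm from level `N ℓ` to level `N` is the product over the cosets
-/

set_option autoImplicit false

namespace Fermat.Agent.GAL.HeckeEquiv

open Fermat.Agent.S24 UpperHalfPlane ModularCurve ModularForm AlgebraicCurve IntermediateField
  CongruenceSubgroup
open scoped MatrixGroups

noncomputable section

/-- `Kb(j)` inside `Kb((q))`. -/
def jField : IntermediateField Kb (LaurentSeries Kb) := Kb⟮jBarSeries 1⟯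

theorem relfinrank_jField (M : ℕ) [NeZero M] :
    relfinrank jField (modularFunctionFieldBar M) = Nat.card (XN M) := by
  have h1 := (degree_of_charpolyCoeff M (charpolyCoeff M)).2
  rw [← h1, ← relfinrank_top_right, ← relfinrank_map_map _ _ (modularFunctionFieldBar M).val]
  congr 1
  · rw [jField, IntermediateField.adjoin_map, Set.image_singleton]
    rfl
  · rw [← AlgHom.fieldRange_eq_map, IntermediateField.fieldRange_val]

theorem jField_le (M : ℕ) : jField ≤ modularFunctionFieldBar M := by
  rw [jField, IntermediateField.adjoin_simple_le_iff]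
  exact jBarSeries_mem M 1 (one_dvd M)

variable (N ℓ : ℕ) [NeZero N] [NeZero ℓ]

theorem bar_le_bar : modularFunctionFieldBar N ≤ modularFunctionFieldBar (N * ℓ) := fun x hx =>
  (heckeAlphaBar Kb N ℓ ⟨x, hx⟩).2

theorem finrank_alpha_eq_relfinrank :
    (letI := algebraAlong (heckeAlphaBar Kb N ℓ); Module.finrank (FN N) (FN (N * ℓ))) =
      relfinrank (modularFunctionFieldBar N) (modularFunctionFieldBar (N * ℓ)) := by
  letI := algebraAlong (heckeAlphaBar Kb N ℓ)
  rw [relfinrank_eq_finrank_of_le (bar_le_bar N ℓ)]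
  refine LinearEquiv.finrank_eq
    { toFun := fun x => ⟨x.1, x.2⟩
      invFun := fun x => ⟨x.1, x.2⟩
      map_add' := fun _ _ => rfl
      map_smul' := fun _ _ => rfl
      left_inv := fun _ => rfl
      right_inv := fun _ => rfl }

theorem finrank_alpha_mul :
    (letI := algebraAlong (heckeAlphaBar Kb N ℓ); Module.finrank (FN N) (FN (N * ℓ))) *
      Nat.card (XN N) = Nat.card (XN (N * ℓ)) := by
  rw [finrank_alpha_eq_relfinrank, ← relfinrank_jField, ← relfinrank_jField, mul_comm]
  exact relfinrank_mul_relfinrank (jField_le N) (bar_le_bar N ℓ)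

/-- The coset space `Γ₀(N) / Γ₀(N ℓ)`. -/
abbrev QN : Type := Gamma0 N ⧸ (Gamma0 (N * ℓ)).subgroupOf (Gamma0 N)

instance finite_QN : Finite (QN N ℓ) := Subgroup.finite_quotient_of_finiteIndex

instance fintype_QN : Fintype (QN N ℓ) := Fintype.ofFinite _

omit [NeZero N] [NeZero ℓ] in
theorem card_QN_mul : Nat.card (QN N ℓ) * Nat.card (XN N) = Nat.card (XN (N * ℓ)) :=
  Subgroup.relIndex_mul_index (S20.Gamma0_mul_le N ℓ)

theorem finrank_alpha :
    (letI := algebraAlong (heckeAlphaBar Kb N ℓ); Module.finrank (FN N) (FN (N * ℓ))) =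
      Nat.card (QN N ℓ) := by
  have h0 : Nat.card (XN N) ≠ 0 := Nat.card_pos.ne'
  exact Nat.eq_of_mul_eq_mul_right (Nat.pos_of_ne_zero h0)
    ((finrank_alpha_mul N ℓ).trans (card_QN_mul N ℓ).symm)

/-! ### The embeddings -/

/-- An algebraically closed field containing `Mer`. -/
abbrev MerBar : Type := AlgebraicClosure Mer

/-- `MerBar` as an algebra over the function field of level `N`. -/
abbrev algMerBar : Algebra (FN N) MerBar := ((algebraMap Mer MerBar).comp (ThetaMer N)).toAlgebra

/-- The embedding of `FN (N ℓ)` over `FN N` attached to `g ∈ Γ₀(N)`. -/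
def embOf (g : Gamma0 N) :
    letI := algebraAlong (heckeAlphaBar Kb N ℓ)
    letI := algMerBar N
    FN (N * ℓ) →ₐ[FN N] MerBar :=
  letI := algebraAlong (heckeAlphaBar Kb N ℓ)
  letI := algMerBar N
  { (algebraMap Mer MerBar).comp (sigma0 (N * ℓ) g) with
    commutes' := fun a => by
      show algebraMap Mer MerBar (sigma0 (N * ℓ) g (heckeAlphaBar Kb N ℓ a)) =
        algebraMap Mer MerBar (ThetaMer N a)
      rw [sigma0_apply, ThetaMer_alpha, actMer_ThetaMer N g.2] }

theorem embOf_apply (g : Gamma0 N) (y : FN (N * ℓ)) :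
    embOf N ℓ g y = algebraMap Mer MerBar (actMer g (ThetaMer (N * ℓ) y)) := rfl

theorem embOf_out_injective :
    Function.Injective (fun q : QN N ℓ => embOf N ℓ q.out) := by
  intro q q' h
  have h1 : sigma0 (N * ℓ) (q.out : SL(2, ℤ)) = sigma0 (N * ℓ) (q'.out : SL(2, ℤ)) := by
    ext y
    apply (algebraMap Mer MerBar).injective
    exact DFunLike.congr_fun h y
  rw [← sigma_mk jfun_isSLInvariant, ← sigma_mk jfun_isSLInvariant] at h1
  have h2 := sigma_injective jfun_isSLInvariant jfun_hasSimplePoleAtImInfty (N * ℓ) h1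
  rw [QuotientGroup.eq] at h2
  rw [← q.out_eq', ← q'.out_eq']
  exact QuotientGroup.eq.mpr (Subgroup.mem_subgroupOf.mpr h2)

theorem finite_alpha :
    letI := algebraAlong (heckeAlphaBar Kb N ℓ)
    Module.Finite (FN N) (FN (N * ℓ)) := by
  letI := algebraAlong (heckeAlphaBar Kb N ℓ)
  apply Module.finite_of_finrank_pos
  rw [finrank_alpha]
  exact Nat.card_pos

/-- **The norm is the product over the cosets.** -/
theorem ThetaMer_norm (y : FN (N * ℓ)) :
    ThetaMer N (letI := algebraAlong (heckeAlphaBar Kb N ℓ); Algebra.norm (FN N) y) =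
      ∏ q : QN N ℓ, actMer (q.out : SL(2, ℤ)) (ThetaMer (N * ℓ) y) := by
  letI := algebraAlong (heckeAlphaBar Kb N ℓ)
  letI := algMerBar N
  haveI := finite_alpha N ℓ
  apply (algebraMap Mer MerBar).injective
  have h1 := Algebra.norm_eq_prod_embeddings (FN N) MerBar y
  have hbij : Function.Bijective (fun q : QN N ℓ => embOf N ℓ q.out) := by
    rw [Fintype.bijective_iff_injective_and_card]
    refine ⟨embOf_out_injective N ℓ, ?_⟩
    rw [AlgHom.card, finrank_alpha, Nat.card_eq_fintype_card]
  rw [map_prod]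
  refine h1.trans ?_
  exact (hbij.prod_comp (fun σ : FN (N * ℓ) →ₐ[FN N] MerBar => σ y)).symm

end

end Fermat.Agent.GAL.HeckeEquiv
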