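import Fermat.Agent.GAL.HeckeEquiv.NormProd
import Fermat.Prelude.Sol.S_ModularForm_heckeT_slash_eq_self_of_mem_Gamma0

/-!
# `Γ₀(N) / Γ₀(N ℓ) ≃ ℙ¹(𝔽_ℓ)` and the Hecke representatives
-/

set_option autoImplicit false

namespace Fermat.Agent.GAL.HeckeEquiv

open Fermat.Agent.S24 UpperHalfPlane ModularCurve ModularForm AlgebraicCurve
  CongruenceSubgroup Matrix.SpecialLinearGroup
open P2MW.S_ModularForm_heckeT_slash_eq_self_of_mem_Gamma0.ModularForm.HeckeSlashInvariance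
open scoped MatrixGroups OnePoint

noncomputable section

theorem det_heckeRep_pos (ℓ : ℕ) (x : OnePoint (ZMod ℓ)) : 0 < (heckeRep ℓ x).det.val := by
  induction x using OnePoint.rec with
  | infty => exact det_heckeDiagMatrix_pos ℓ
  | coe j => exact det_heckeMatrix_pos ℓ j.val

theorem entry_of_diag_comm {ℓ : ℕ} (hℓ0 : ℓ ≠ 0) (A T : SL(2, ℤ))
    (h : heckeDiagMatrix ℓ * mapGL ℝ A = mapGL ℝ T * heckeDiagMatrix ℓ) :
    A 1 0 = T 1 0 * (ℓ : ℤ) := by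
  have h10 := congrArg (fun M : GL (Fin 2) ℝ => (M : Matrix (Fin 2) (Fin 2) ℝ) 1 0) h
  simp only [Matrix.GeneralLinearGroup.coe_mul, val_heckeDiagMatrix hℓ0, Matrix.mul_apply,
    Fin.sum_univ_two] at h10
  simp at h10
  exact_mod_cast h10

variable (N ℓ : ℕ) [NeZero N] [hℓ : Fact ℓ.Prime]

/-- The point of `ℙ¹(𝔽_ℓ)` attached to `g ∈ SL(2,ℤ)`. -/
def piOf (g : SL(2, ℤ)) : OnePoint (ZMod ℓ) := redMatrix ℓ g⁻¹ • (∞ : OnePoint (ZMod ℓ))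

variable {N ℓ}

omit [NeZero N] in
theorem exists_diag_mul (hℓN : ¬ ℓ ∣ N) {g : SL(2, ℤ)} (hg : g ∈ Gamma0 N) :
    ∃ g' ∈ Gamma0 N, heckeDiagMatrix ℓ * mapGL ℝ g⁻¹ = mapGL ℝ g' * heckeRep ℓ (piOf ℓ g) := by
  obtain ⟨g', h1, h2⟩ := heckeRep_mul hℓN g⁻¹
    ((S20.mem_Gamma0_iff_dvd N _).mp (inv_mem hg)) (∞ : OnePoint (ZMod ℓ))
  exact ⟨g', (S20.mem_Gamma0_iff_dvd N _).mpr h1, h2⟩

omit [NeZero N] in
theorem actMer_merGL_diag (hℓN : ¬ ℓ ∣ N) {g : SL(2, ℤ)} (hg : g ∈ Gamma0 N) {F : Mer}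
    (hF : ∀ γ ∈ Gamma0 N, actMer γ F = F) :
    actMer g (merGL (heckeDiagMatrix ℓ) (det_heckeDiagMatrix_pos ℓ) F) =
      merGL (heckeRep ℓ (piOf ℓ g)) (det_heckeRep_pos ℓ _) F := by
  obtain ⟨g', hg', h⟩ := exists_diag_mul hℓN hg
  rw [actMer_eq_merGL, merGL_merGL, merGL_congr h, ← merGL_merGL _ _ (det_heckeRep_pos ℓ _)
    (det_mapGL_pos g'), merGL_mapGL, hF _ (inv_mem hg')]

omit [NeZero N] in
theorem mem_Gamma0_mul_of_piOf_eq (hℓN : ¬ ℓ ∣ N) {a b : SL(2, ℤ)} (ha : a ∈ Gamma0 N)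
    (hb : b ∈ Gamma0 N) (h : piOf ℓ a = piOf ℓ b) : a⁻¹ * b ∈ Gamma0 (N * ℓ) := by
  obtain ⟨s, -, hs⟩ := exists_diag_mul hℓN ha
  obtain ⟨s', -, hs'⟩ := exists_diag_mul hℓN hb
  rw [h] at hs
  have hℓ0 : ℓ ≠ 0 := hℓ.out.ne_zero
  have key : heckeDiagMatrix ℓ * mapGL ℝ (a⁻¹ * b) = mapGL ℝ (s * s'⁻¹) * heckeDiagMatrix ℓ := by
    have h1 : heckeDiagMatrix ℓ = mapGL ℝ s' * heckeRep ℓ (piOf ℓ b) * mapGL ℝ b := by
      rw [← hs', mul_assoc, ← map_mul, inv_mul_cancel, map_one, mul_one]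
    calc heckeDiagMatrix ℓ * mapGL ℝ (a⁻¹ * b)
        = (heckeDiagMatrix ℓ * mapGL ℝ a⁻¹) * mapGL ℝ b := by rw [map_mul, mul_assoc]
      _ = mapGL ℝ s * heckeRep ℓ (piOf ℓ b) * mapGL ℝ b := by rw [hs]
      _ = mapGL ℝ (s * s'⁻¹) * (mapGL ℝ s' * heckeRep ℓ (piOf ℓ b) * mapGL ℝ b) := by
          rw [map_mul, map_inv]; group
      _ = mapGL ℝ (s * s'⁻¹) * heckeDiagMatrix ℓ := by rw [← h1]
  have h10' : (a⁻¹ * b) 1 0 = (s * s'⁻¹) 1 0 * (ℓ : ℤ) := entry_of_diag_comm hℓ0 _ _ key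
  rw [S20.mem_Gamma0_iff_dvd]
  have hN : (N : ℤ) ∣ (a⁻¹ * b) 1 0 :=
    (S20.mem_Gamma0_iff_dvd N _).mp (mul_mem (inv_mem ha) hb)
  have hcop : IsCoprime (N : ℤ) (ℓ : ℤ) :=
    Nat.isCoprime_iff_coprime.mpr ((Nat.Prime.coprime_iff_not_dvd hℓ.out).mpr hℓN).symm
  push_cast
  exact hcop.mul_dvd hN (h10' ▸ dvd_mul_left _ _)

theorem piOf_out_bijective (hℓN : ¬ ℓ ∣ N) :
    Function.Bijective (fun q : QN N ℓ => piOf ℓ (q.out : SL(2, ℤ))) := by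
  rw [Fintype.bijective_iff_injective_and_card]
  constructor
  · intro q q' h
    rw [← q.out_eq', ← q'.out_eq']
    exact QuotientGroup.eq.mpr (Subgroup.mem_subgroupOf.mpr
      (mem_Gamma0_mul_of_piOf_eq hℓN q.out.2 q'.out.2 h))
  · rw [← Nat.card_eq_fintype_card]
    have h1 : Nat.card (QN N ℓ) = ℓ + 1 :=
      S20.relIndex_Gamma0_of_not_dvd (NeZero.ne N) hℓ.out hℓN
    rw [h1]
    have h2 : Fintype.card (OnePoint (ZMod ℓ)) = Fintype.card (ZMod ℓ) + 1 :=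
      Fintype.card_option
    rw [h2, ZMod.card]

/-- The product over the cosets is the product over the Hecke representatives. -/
theorem prod_actMer_merGL_diag (hℓN : ¬ ℓ ∣ N) {F : Mer}
    (hF : ∀ γ ∈ Gamma0 N, actMer γ F = F) :
    ∏ q : QN N ℓ, actMer (q.out : SL(2, ℤ))
        (merGL (heckeDiagMatrix ℓ) (det_heckeDiagMatrix_pos ℓ) F) =
      ∏ x : OnePoint (ZMod ℓ), merGL (heckeRep ℓ x) (det_heckeRep_pos ℓ x) F := by
  rw [← (piOf_out_bijective (N := N) hℓN).prod_comp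
    (fun x : OnePoint (ZMod ℓ) => merGL (heckeRep ℓ x) (det_heckeRep_pos ℓ x) F)]
  exact Finset.prod_congr rfl fun q _ => actMer_merGL_diag hℓN q.out.2 hF

/-- **Analytic form of `Norm_α ∘ β`.** -/
theorem ThetaMer_norm_beta (hℓN : ¬ ℓ ∣ N) (f : FN N) :
    ThetaMer N (letI := algebraAlong (heckeAlphaBar Kb N ℓ);
        Algebra.norm (FN N) (heckeBetaBar Kb N ℓ f)) =
      ∏ x : OnePoint (ZMod ℓ), merGL (heckeRep ℓ x) (det_heckeRep_pos ℓ x) (ThetaMer N f) := by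
  rw [ThetaMer_norm]
  simp only [ThetaMer_beta]
  exact prod_actMer_merGL_diag hℓN fun γ hγ => actMer_ThetaMer N hγ f

end

end Fermat.Agent.GAL.HeckeEquiv
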