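import Fermat.Agent.S24.Hol

/-!
# Precomposition of meromorphic functions on `ℍ` with elements of `GL(2,ℝ)⁺`
-/

set_option autoImplicit false

namespace Fermat.Agent.GAL.HeckeEquiv

open Fermat.Agent.S24 UpperHalfPlane Matrix.SpecialLinearGroup
open scoped MatrixGroups

noncomputable section

/-- `Hol → Mer`, `f ↦ f ∘ g`. -/
def holToMerGL (g : GL (Fin 2) ℝ) (hg : 0 < g.det.val) : Hol →ₐ[ℂ] Mer :=
  (IsScalarTower.toAlgHom ℂ Hol Mer).comp (compGL g hg)

theorem holToMerGL_injective (g : GL (Fin 2) ℝ) (hg : 0 < g.det.val) :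
    Function.Injective (holToMerGL g hg) :=
  (IsFractionRing.injective Hol Mer).comp (compGL_injective g hg)

/-- Precomposition with an element of `GL(2,ℝ)⁺` on `Mer`: `(merGL g u)(z) = u (g z)`. -/
def merGL (g : GL (Fin 2) ℝ) (hg : 0 < g.det.val) : Mer →ₐ[ℂ] Mer :=
  IsFractionRing.liftAlgHom (holToMerGL_injective g hg)

@[simp] theorem merGL_algebraMap (g : GL (Fin 2) ℝ) (hg : 0 < g.det.val) (f : Hol) :
    merGL g hg (algebraMap Hol Mer f) = algebraMap Hol Mer (compGL g hg f) := by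
  rw [merGL, IsFractionRing.liftAlgHom_apply, IsFractionRing.lift_algebraMap]
  rfl

theorem merGL_congr {g g' : GL (Fin 2) ℝ} (h : g = g') (hg : 0 < g.det.val) (u : Mer) :
    merGL g hg u = merGL g' (h ▸ hg) u := by
  subst h
  rfl

theorem det_mul_pos {g g' : GL (Fin 2) ℝ} (hg : 0 < g.det.val) (hg' : 0 < g'.det.val) :
    0 < (g * g').det.val := by
  rw [map_mul, Units.val_mul]
  exact mul_pos hg hg'

theorem merGL_merGL (g g' : GL (Fin 2) ℝ) (hg : 0 < g.det.val) (hg' : 0 < g'.det.val) (u : Mer) :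
    merGL g hg (merGL g' hg' u) = merGL (g' * g) (det_mul_pos hg' hg) u := by
  obtain ⟨a, b, -, rfl⟩ := IsFractionRing.div_surjective (A := Hol) u
  simp only [map_div₀, merGL_algebraMap]
  congr 2 <;>
  · apply Subtype.ext
    funext z
    simp [mul_smul]

theorem merGL_mapGL (s : SL(2, ℤ)) (u : Mer) :
    merGL (mapGL ℝ s) (det_mapGL_pos s) u = actMer s⁻¹ u := by
  obtain ⟨a, b, -, rfl⟩ := IsFractionRing.div_surjective (A := Hol) u
  simp only [map_div₀, merGL_algebraMap, actMer_algebraMap]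
  congr 2 <;>
  · apply Subtype.ext
    funext z
    rw [actHol_apply, inv_inv]
    rfl

theorem actMer_eq_merGL (s : SL(2, ℤ)) (u : Mer) :
    actMer s u = merGL (mapGL ℝ s⁻¹) (det_mapGL_pos s⁻¹) u := by
  rw [merGL_mapGL, inv_inv]

theorem merGL_injective (g : GL (Fin 2) ℝ) (hg : 0 < g.det.val) :
    Function.Injective (merGL g hg) :=
  (merGL g hg).toRingHom.injective

end

end Fermat.Agent.GAL.HeckeEquiv
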