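import Fermat.Agent.GAL.HeckeEquiv.MerGL
import Fermat.Agent.S24.Sigma
import Fermat.Agent.S24.Conj
import Fermat.Prelude.Def_ModularCurve_HeckeOperator

/-!
# The analytic embedding `ThetaMer` and the two degeneracy maps `α`, `β`
-/

set_option autoImplicit false

namespace Fermat.Agent.GAL.HeckeEquiv

open Fermat.Agent.S24 UpperHalfPlane ModularCurve ModularForm
open scoped MatrixGroups

noncomputable section

variable (N ℓ : ℕ) [NeZero N] [NeZero ℓ]

theorem alpha_jBar (d : ℕ) [NeZero d] (hd : d ∣ N) :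
    heckeAlphaBar Kb N ℓ (jBar N d hd) = jBar (N * ℓ) d (hd.mul_right ℓ) :=
  Subtype.ext (by rw [coe_heckeAlphaBar]; rfl)

omit [NeZero N] in
theorem beta_jBar (d : ℕ) [NeZero d] (hd : d ∣ N) :
    heckeBetaBar Kb N ℓ (jBar N d hd) = jBar (N * ℓ) (ℓ * d) (by
      rw [mul_comm N ℓ]; exact mul_dvd_mul_left ℓ hd) := by
  apply Subtype.ext
  rw [coe_heckeBetaBar, coe_jBar, coe_jBar, jqNModC, jqNModC, qExpand_qExpand]

theorem ThetaMer_alpha (f : FN N) :
    ThetaMer (N * ℓ) (heckeAlphaBar Kb N ℓ f) = ThetaMer N f := by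
  have : (ThetaMer (N * ℓ)).comp (heckeAlphaBar Kb N ℓ).toRingHom = ThetaMer N := by
    apply ringHom_ext_bar
    · intro a
      rw [RingHom.comp_apply, AlgHom.toRingHom_eq_coe, RingHom.coe_coe, AlgHom.commutes,
        ThetaMer_algebraMap, ThetaMer_algebraMap]
    · intro d _ hd
      rw [RingHom.comp_apply, AlgHom.toRingHom_eq_coe, RingHom.coe_coe, alpha_jBar,
        ThetaMer_jBar, ThetaMer_jBar]
  exact congrArg (fun φ : FN N →+* Mer => φ f) this

theorem compGL_diag_jdHol (d : ℕ) [NeZero d] :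
    compGL (heckeDiagMatrix ℓ) (det_heckeDiagMatrix_pos ℓ) (jdHol d) = jdHol (ℓ * d) := by
  apply Subtype.ext
  funext τ
  rw [compGL_apply, coe_jdHol, coe_jdHol, jd, jd, ← scal_eq_smul]
  congr 1
  apply UpperHalfPlane.ext
  rw [coe_scal, coe_scal, coe_scal]
  push_cast
  ring

omit [NeZero N] in
theorem ThetaMer_beta (f : FN N) :
    ThetaMer (N * ℓ) (heckeBetaBar Kb N ℓ f) =
      merGL (heckeDiagMatrix ℓ) (det_heckeDiagMatrix_pos ℓ) (ThetaMer N f) := by
  have : (ThetaMer (N * ℓ)).comp (heckeBetaBar Kb N ℓ).toRingHom =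
      (merGL (heckeDiagMatrix ℓ) (det_heckeDiagMatrix_pos ℓ)).toRingHom.comp (ThetaMer N) := by
    apply ringHom_ext_bar
    · intro a
      rw [RingHom.comp_apply, RingHom.comp_apply, AlgHom.toRingHom_eq_coe, RingHom.coe_coe,
        AlgHom.commutes, AlgHom.toRingHom_eq_coe, RingHom.coe_coe,
        ThetaMer_algebraMap, ThetaMer_algebraMap, AlgHom.commutes]
    · intro d _ hd
      rw [RingHom.comp_apply, RingHom.comp_apply, AlgHom.toRingHom_eq_coe, RingHom.coe_coe,
        AlgHom.toRingHom_eq_coe, RingHom.coe_coe, beta_jBar,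
        ThetaMer_jBar, ThetaMer_jBar, merGL_algebraMap, compGL_diag_jdHol]
  exact congrArg (fun φ : FN N →+* Mer => φ f) this

omit [NeZero N] in
/-- `ThetaMer N f` is invariant under `Γ₀(N)`. -/
theorem actMer_ThetaMer {γ : SL(2, ℤ)} (hγ : γ ∈ CongruenceSubgroup.Gamma0 N) (f : FN N) :
    actMer γ (ThetaMer N f) = ThetaMer N f := by
  rw [← sigma0_apply, sigma0_of_mem jfun_isSLInvariant hγ]

end

end Fermat.Agent.GAL.HeckeEquiv
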